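/-
Elementary theory of points of order 3 and 5 on a Weierstrass curve over an algebraically closed
field, in terms of the doubling map on `x`-coordinates.
-/
import Mathlib.AlgebraicGeometry.EllipticCurve.Affine.Point
import Mathlib.AlgebraicGeometry.EllipticCurve.DivisionPolynomial.Degree
import Mathlib.FieldTheory.IsAlgClosed.Basic
import Mathlib.Algebra.Module.Torsion.Basic
import Mathlib.Tactic

set_option autoImplicit false

open Polynomial WeierstrassCurve

namespace Fermat.Agent.EC35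

variable {F : Type*} [Field F] (W : WeierstrassCurve F)

/-- The invariants `b₂, b₄` of the translate of `W` in which `x` becomes the origin. -/
def shiftB₂ (x : F) : F := W.b₂ + 12 * x

/-- See `shiftB₂`. -/
def shiftB₄ (x : F) : F := W.b₄ + x * W.b₂ + 6 * x ^ 2

lemma eval_Ψ₂Sq (x : F) :
    W.Ψ₂Sq.eval x = 4 * x ^ 3 + W.b₂ * x ^ 2 + 2 * W.b₄ * x + W.b₆ := by
  simp [WeierstrassCurve.Ψ₂Sq]

lemma eval_Ψ₃ (x : F) :
    W.Ψ₃.eval x = 3 * x ^ 4 + W.b₂ * x ^ 3 + 3 * W.b₄ * x ^ 2 + 3 * W.b₆ * x + W.b₈ := by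
  simp [WeierstrassCurve.Ψ₃]

lemma eval_preΨ'_five (x : F) :
    (W.preΨ' 5).eval x =
      (shiftB₄ W x * W.Ψ₃.eval x - W.Ψ₂Sq.eval x ^ 2) * W.Ψ₂Sq.eval x ^ 2
        - W.Ψ₃.eval x ^ 3 := by
  have h := W.preΨ'_odd 0
  simp only [Nat.reduceMul, Nat.reduceAdd, preΨ'_one, preΨ'_two, preΨ'_three, preΨ'_four,
    Even.zero, if_true, one_pow, mul_one, one_mul] at h
  have h4 : W.preΨ₄.eval x = shiftB₄ W x * W.Ψ₃.eval x - W.Ψ₂Sq.eval x ^ 2 := by
    simp only [eval_Ψ₃, eval_Ψ₂Sq, shiftB₄, WeierstrassCurve.preΨ₄, eval_add, eval_mul, eval_pow,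
      eval_C, eval_X, eval_ofNat, WeierstrassCurve.b₂, WeierstrassCurve.b₄, WeierstrassCurve.b₆,
      WeierstrassCurve.b₈]
    ring
  simp [h, h4]

lemma c₄_eq_shift (x : F) : W.c₄ = shiftB₂ W x ^ 2 - 24 * shiftB₄ W x := by
  simp only [WeierstrassCurve.c₄, shiftB₂, shiftB₄]
  ring

lemma Δ_eq_shift (x : F) :
    W.Δ = -shiftB₂ W x ^ 2 * W.Ψ₃.eval x - 8 * shiftB₄ W x ^ 3 - 27 * W.Ψ₂Sq.eval x ^ 2
      + 9 * shiftB₂ W x * shiftB₄ W x * W.Ψ₂Sq.eval x := by
  simp only [WeierstrassCurve.Δ, shiftB₂, shiftB₄, eval_Ψ₃, eval_Ψ₂Sq, WeierstrassCurve.b₂,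
    WeierstrassCurve.b₄, WeierstrassCurve.b₆, WeierstrassCurve.b₈]
  ring

lemma shift_relation (x : F) :
    4 * W.Ψ₃.eval x = shiftB₂ W x * W.Ψ₂Sq.eval x - shiftB₄ W x ^ 2 := by
  simp only [shiftB₂, shiftB₄, eval_Ψ₃, eval_Ψ₂Sq, WeierstrassCurve.b₂,
    WeierstrassCurve.b₄, WeierstrassCurve.b₆, WeierstrassCurve.b₈]
  ring

lemma Ψ₃_ne_zero_of_Ψ₂Sq {x : F} (hΔ : W.Δ ≠ 0) (h2 : W.Ψ₂Sq.eval x = 0) :
    W.Ψ₃.eval x ≠ 0 := by
  intro h3
  have hr := shift_relation W x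
  have hd := Δ_eq_shift W x
  rw [h2, h3] at hr hd
  have h4 : shiftB₄ W x = 0 :=
    pow_eq_zero_iff two_ne_zero |>.mp (by linear_combination hr)
  rw [h4] at hd
  exact hΔ (by linear_combination hd)

lemma Ψ₂Sq_ne_zero_of_Ψ₃ {x : F} (hΔ : W.Δ ≠ 0) (h3 : W.Ψ₃.eval x = 0) :
    W.Ψ₂Sq.eval x ≠ 0 := fun h2 => Ψ₃_ne_zero_of_Ψ₂Sq W hΔ h2 h3

/-- The `x`-coordinate of twice a point with `x`-coordinate `x`. -/
noncomputable def dblX (x : F) : F := x - W.Ψ₃.eval x / W.Ψ₂Sq.eval x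

lemma Ψ₃_eval_eq {x : F} (h : W.Ψ₂Sq.eval x ≠ 0) :
    W.Ψ₃.eval x = -(dblX W x - x) * W.Ψ₂Sq.eval x := by
  rw [dblX, sub_sub_cancel_left, neg_neg, div_mul_cancel₀ _ h]

/-- Doubling at a second point `z`, expanded around `x`. -/
lemma dbl_expansion (x z : F) :
    (z - x) * W.Ψ₂Sq.eval z - W.Ψ₃.eval z = (z - x) ^ 4 - shiftB₄ W x * (z - x) ^ 2
      - 2 * W.Ψ₂Sq.eval x * (z - x) - W.Ψ₃.eval x := by
  simp only [shiftB₄, eval_Ψ₃, eval_Ψ₂Sq]
  ring

/-- The two doubling relations between the `x`-coordinates of `P` and `2P` for `P` of order 5. -/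
structure IsFivePair (x z : F) : Prop where
  ne : z ≠ x
  left : W.Ψ₃.eval x = -(z - x) * W.Ψ₂Sq.eval x
  right : W.Ψ₃.eval z = -(x - z) * W.Ψ₂Sq.eval z
  nonzero : W.Ψ₂Sq.eval x ≠ 0

lemma IsFivePair.Ψ₂Sq_eq {x z : F} (h : IsFivePair W x z) :
    W.Ψ₂Sq.eval x = (z - x) * ((z - x) ^ 2 - shiftB₄ W x) := by
  have hD : z - x ≠ 0 := sub_ne_zero.mpr h.ne
  have e := dbl_expansion W x z
  rw [h.right, h.left] at e
  apply mul_left_cancel₀ hD
  linear_combination e

lemma IsFivePair.preΨ'_five_eq_zero {x z : F} (h : IsFivePair W x z) :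
    (W.preΨ' 5).eval x = 0 := by
  rw [eval_preΨ'_five, h.left, h.Ψ₂Sq_eq]
  ring

section Point

variable [DecidableEq F]

open WeierstrassCurve.Affine

variable {W}

omit [DecidableEq F] in
lemma Ψ₂Sq_eq_sq {x y : F} (h : W.toAffine.Equation x y) :
    W.Ψ₂Sq.eval x = (2 * y + W.a₁ * x + W.a₃) ^ 2 := by
  rw [Affine.equation_iff] at h
  simp only [eval_Ψ₂Sq, WeierstrassCurve.b₂, WeierstrassCurve.b₄, WeierstrassCurve.b₆]
  linear_combination -4 * h

omit [DecidableEq F] in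
lemma eq_negY_iff_Ψ₂Sq {x y : F} (h : W.toAffine.Equation x y) :
    y = W.toAffine.negY x y ↔ W.Ψ₂Sq.eval x = 0 := by
  rw [Ψ₂Sq_eq_sq h, pow_eq_zero_iff two_ne_zero, Affine.negY]
  constructor <;> intro h' <;> linear_combination h'

lemma exists_add_self {x y : F} {h : W.toAffine.Nonsingular x y} (h2 : W.Ψ₂Sq.eval x ≠ 0) :
    ∃ y' : F, ∃ h' : W.toAffine.Nonsingular (dblX W x) y',
      Point.some x y h + Point.some x y h = Point.some (dblX W x) y' h' := by
  have hy : y ≠ W.toAffine.negY x y := fun e => h2 ((eq_negY_iff_Ψ₂Sq h.left).mp e)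
  have hX : W.toAffine.addX x x (W.toAffine.slope x x y y) = dblX W x := by
    have hd : y - W.toAffine.negY x y = 2 * y + W.a₁ * x + W.a₃ := by
      rw [Affine.negY]; ring
    have hd0 : 2 * y + W.a₁ * x + W.a₃ ≠ 0 := hd ▸ sub_ne_zero.mpr hy
    have he := h.left
    rw [Affine.equation_iff] at he
    have e1 : (3 * x ^ 2 + 2 * W.a₂ * x + W.a₄ - W.a₁ * y) ^ 2
        + W.a₁ * (3 * x ^ 2 + 2 * W.a₂ * x + W.a₄ - W.a₁ * y) * (2 * y + W.a₁ * x + W.a₃)
        - (W.a₂ + 3 * x) * (2 * y + W.a₁ * x + W.a₃) ^ 2 + W.Ψ₃.eval x = 0 := by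
      simp only [eval_Ψ₃, WeierstrassCurve.b₂, WeierstrassCurve.b₄, WeierstrassCurve.b₆,
        WeierstrassCurve.b₈]
      linear_combination (-(12 * x) - W.a₁ ^ 2 - 4 * W.a₂) * he
    rw [Affine.addX, Affine.slope_of_Y_ne rfl hy, hd, dblX, Ψ₂Sq_eq_sq h.left]
    generalize 2 * y + W.a₁ * x + W.a₃ = D at hd0 e1 ⊢
    simp only [WeierstrassCurve.toAffine]
    generalize 3 * x ^ 2 + 2 * W.a₂ * x + W.a₄ - W.a₁ * y = N at e1 ⊢
    generalize W.Ψ₃.eval x = Z at e1 ⊢
    field_simp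
    linear_combination e1
  have key := Point.add_self_of_Y_ne (W := W.toAffine) (h₁ := h) hy
  refine ⟨W.toAffine.addY x x y (W.toAffine.slope x x y y),
    hX ▸ Affine.nonsingular_add h h (fun e => hy e.right), ?_⟩
  rw [key, Point.some.injEq]
  exact ⟨hX, rfl⟩

lemma add_self_eq_zero {x y : F} {h : W.toAffine.Nonsingular x y} (h2 : W.Ψ₂Sq.eval x = 0) :
    Point.some x y h + Point.some x y h = 0 :=
  Point.add_self_of_Y_eq ((eq_negY_iff_Ψ₂Sq h.left).mpr h2)

omit [DecidableEq F] in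
lemma X_eq_of_eq_neg {x y x' y' : F} {h : W.toAffine.Nonsingular x y}
    {h' : W.toAffine.Nonsingular x' y'} (e : Point.some x' y' h' = -Point.some x y h) :
    x' = x := by
  rw [Point.neg_some, Point.some.injEq] at e
  exact e.1

omit [DecidableEq F] in
lemma X_eq_of_eq {x y x' y' : F} {h : W.toAffine.Nonsingular x y}
    {h' : W.toAffine.Nonsingular x' y'} (e : Point.some x' y' h' = Point.some x y h) :
    x' = x := by
  rw [Point.some.injEq] at e
  exact e.1

omit [DecidableEq F] in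
lemma eq_or_eq_neg_of_X_eq {x y x' y' : F} {h : W.toAffine.Nonsingular x y}
    {h' : W.toAffine.Nonsingular x' y'} (e : x' = x) :
    Point.some x' y' h' = Point.some x y h ∨ Point.some x' y' h' = -Point.some x y h := by
  subst e
  rcases Affine.Y_eq_of_X_eq h'.left h.left rfl with e' | e'
  · left; simp only [e']
  · right; rw [Point.neg_some]; simp only [e']

lemma Ψ₃_eq_zero_of_three_nsmul {x y : F} {h : W.toAffine.Nonsingular x y}
    (h3 : 3 • Point.some x y h = 0) : W.Ψ₃.eval x = 0 := by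
  have h2 : W.Ψ₂Sq.eval x ≠ 0 := fun e => Point.some_ne_zero h (by
    rwa [show 3 = 2 + 1 from rfl, succ_nsmul, two_nsmul, add_self_eq_zero e, zero_add] at h3)
  obtain ⟨y', h', e⟩ := exists_add_self (h := h) h2
  rw [show 3 = 2 + 1 from rfl, succ_nsmul, two_nsmul, e, add_eq_zero_iff_eq_neg] at h3
  rw [Ψ₃_eval_eq W h2, X_eq_of_eq_neg h3, sub_self, neg_zero, zero_mul]

lemma isFivePair_of_five_nsmul {x y : F} {h : W.toAffine.Nonsingular x y}
    (h5 : 5 • Point.some x y h = 0) :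
    IsFivePair W x (dblX W x) ∧ ∃ y' : F, ∃ h' : W.toAffine.Nonsingular (dblX W x) y',
      2 • Point.some x y h = Point.some (dblX W x) y' h' := by
  set P := Point.some x y h with hP
  have hne : P ≠ 0 := Point.some_ne_zero h
  have h2P : 2 • P ≠ 0 := fun e => hne <| by
    have : 5 • P - 2 • (2 • P) = P := by abel
    rw [h5, e, smul_zero, sub_zero] at this
    exact this.symm
  have h2 : W.Ψ₂Sq.eval x ≠ 0 := fun e => h2P (by rw [two_nsmul, hP, add_self_eq_zero e])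
  obtain ⟨y', h', e⟩ := exists_add_self (h := h) h2
  rw [← hP, ← two_nsmul] at e
  set Q := Point.some (dblX W x) y' h' with hQ
  have hQ5 : 5 • Q = 0 := by rw [← e, smul_comm, h5, smul_zero]
  have hQ2 : W.Ψ₂Sq.eval (dblX W x) ≠ 0 := fun e' => Point.some_ne_zero h' <| by
    have h0 : 2 • Q = 0 := by rw [two_nsmul, hQ, add_self_eq_zero e']
    have : 5 • Q - 2 • (2 • Q) = Q := by abel
    rw [hQ5, h0, smul_zero, sub_zero] at this
    exact this.symm
  obtain ⟨y'', h'', e'⟩ := exists_add_self (h := h') hQ2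
  have h4 : Point.some (dblX W (dblX W x)) y'' h'' = -P := by
    rw [← e', ← hQ, ← e, eq_neg_iff_add_eq_zero, ← h5]
    abel
  have hr := X_eq_of_eq_neg (hP ▸ h4)
  refine ⟨⟨fun hzx => ?_, Ψ₃_eval_eq W h2, ?_, h2⟩, y', h', e⟩
  · rcases eq_or_eq_neg_of_X_eq (h := h) (h' := h') hzx with e'' | e''
    · exact hne <| by
        rw [← hQ, ← hP, ← e] at e''
        rwa [two_nsmul, add_eq_left] at e''
    · exact hne <| by
        rw [← hQ, ← hP, ← e, eq_neg_iff_add_eq_zero] at e''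
        have : 2 • (2 • P + P) - 5 • P = P := by abel
        rw [h5, e'', smul_zero, sub_zero] at this
        exact this.symm
  · have := Ψ₃_eval_eq W hQ2
    rwa [hr] at this

variable (W)

omit [DecidableEq F] in
lemma exists_nonsingular [IsAlgClosed F] (hΔ : W.Δ ≠ 0) (x : F) :
    ∃ y, W.toAffine.Nonsingular x y := by
  obtain ⟨y, hy⟩ := IsAlgClosed.exists_root (W.toAffine.polynomial.map (evalRingHom x))
    (by
      rw [Polynomial.degree_map_eq_of_leadingCoeff_ne_zero, Affine.degree_polynomial]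
      · decide
      · simp [Affine.monic_polynomial.leadingCoeff])
  refine ⟨y, (Affine.equation_iff_nonsingular_of_Δ_ne_zero hΔ).mp ?_⟩
  rw [Affine.Equation, ← Polynomial.map_evalRingHom_eval x y]
  exact hy

lemma exists_three_torsion [IsAlgClosed F] (hΔ : W.Δ ≠ 0) (h3 : (3 : F) ≠ 0) :
    ∃ P : W.toAffine.Point, P ≠ 0 ∧ 3 • P = 0 := by
  obtain ⟨x, hx⟩ := IsAlgClosed.exists_root W.Ψ₃
    (natDegree_pos_iff_degree_pos.mp (W.natDegree_Ψ₃_pos h3)).ne'
  obtain ⟨y, hy⟩ := exists_nonsingular W hΔ x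
  obtain ⟨y', h', e⟩ := exists_add_self (h := hy) (Ψ₂Sq_ne_zero_of_Ψ₃ W hΔ hx)
  refine ⟨.some x y hy, Point.some_ne_zero hy, ?_⟩
  have hxx : dblX W x = x := by rw [dblX, hx, zero_div, sub_zero]
  rw [show 3 = 2 + 1 from rfl, succ_nsmul, two_nsmul]
  rcases eq_or_eq_neg_of_X_eq (h := hy) (h' := h') hxx with e' | e'
  · rw [← e, add_eq_left] at e'
    exact absurd e' (Point.some_ne_zero hy)
  · rw [e, e', neg_add_cancel]

lemma exists_five_torsion [IsAlgClosed F] (hΔ : W.Δ ≠ 0) (h5 : ((5 : ℕ) : F) ≠ 0) :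
    ∃ P : W.toAffine.Point, P ≠ 0 ∧ 5 • P = 0 := by
  obtain ⟨x, hx⟩ := IsAlgClosed.exists_root (W.preΨ' 5)
    (natDegree_pos_iff_degree_pos.mp (W.natDegree_preΨ'_pos (by norm_num) h5)).ne'
  rw [IsRoot, eval_preΨ'_five] at hx
  have h2 : W.Ψ₂Sq.eval x ≠ 0 := fun e => by
    have h3 := Ψ₃_ne_zero_of_Ψ₂Sq W hΔ e
    simp [e, h3] at hx
  have h3 : W.Ψ₃.eval x ≠ 0 := fun e => by simp [e, h2] at hx
  obtain ⟨y, hy⟩ := exists_nonsingular W hΔ x
  obtain ⟨y', h', e⟩ := exists_add_self (h := hy) h2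
  set z := dblX W x with hz
  have hl : W.Ψ₃.eval x = -(z - x) * W.Ψ₂Sq.eval x := Ψ₃_eval_eq W h2
  rw [hl] at hx
  have hC : W.Ψ₂Sq.eval x = (z - x) * ((z - x) ^ 2 - shiftB₄ W x) := by
    apply mul_left_cancel₀ (pow_ne_zero 3 h2)
    linear_combination -hx
  have hr : (z - x) * W.Ψ₂Sq.eval z - W.Ψ₃.eval z = 0 := by
    rw [dbl_expansion, hl]
    linear_combination -(z - x) * hC
  have hz2 : W.Ψ₂Sq.eval z ≠ 0 := fun e' => Ψ₃_ne_zero_of_Ψ₂Sq W hΔ e' (by
    rw [e'] at hr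
    linear_combination -hr)
  have hzx : dblX W z = x := by
    rw [dblX]
    field_simp
    linear_combination hr
  obtain ⟨y'', h'', e'⟩ := exists_add_self (h := h') hz2
  refine ⟨.some x y hy, Point.some_ne_zero hy, ?_⟩
  set P := Point.some x y hy with hP
  have h4 : 4 • P = Point.some (dblX W z) y'' h'' := by
    rw [← e', ← e]
    abel
  rcases eq_or_eq_neg_of_X_eq (h := hy) (h' := h'') hzx with e'' | e''
  · exfalso
    rw [← h4, ← hP] at e''
    refine h3 (Ψ₃_eq_zero_of_three_nsmul (h := hy) ?_)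
    have : 4 • P - P = 3 • P := by abel
    rw [← hP, ← this, e'', sub_self]
  · rw [← h4, ← hP, eq_neg_iff_add_eq_zero] at e''
    rw [← e'']
    abel

/-- A finite set of points whose `x`-coordinates are roots of `f` has at most `1 + 2 deg f`
elements. -/
lemma natCard_le_of_X_root {f : F[X]} (hf : f ≠ 0) {S : Set W.toAffine.Point}
    (hS : ∀ x y h, Point.some x y h ∈ S → f.eval x = 0) :
    S.Finite ∧ Nat.card S ≤ 1 + 2 * f.natDegree := by
  classical
  let pick : F → W.toAffine.Point := fun x =>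
    if h : ∃ y, W.toAffine.Nonsingular x y then Point.some x h.choose h.choose_spec else 0
  let R := f.roots.toFinset
  let T : Finset W.toAffine.Point := insert 0 (R.image pick ∪ R.image fun x => -pick x)
  have hsub : S ⊆ ↑T := by
    intro P hP
    match P with
    | .zero => exact Finset.mem_insert_self _ _
    | .some x y h =>
      have hx : x ∈ R := by simpa [R, hf] using hS x y h hP
      have hex : ∃ y, W.toAffine.Nonsingular x y := ⟨y, h⟩
      have hp : pick x = Point.some x hex.choose hex.choose_spec := dif_pos hex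
      rcases eq_or_eq_neg_of_X_eq (h := hex.choose_spec) (h' := h) rfl with e | e <;>
        rw [← hp] at e <;> rw [e] <;>
        simp only [Finset.coe_insert, Finset.coe_union, Finset.coe_image, Set.mem_insert_iff,
          Set.mem_union, Set.mem_image, Finset.mem_coe, T]
      · exact Or.inr (Or.inl ⟨x, hx, rfl⟩)
      · exact Or.inr (Or.inr ⟨x, hx, rfl⟩)
  refine ⟨T.finite_toSet.subset hsub, ?_⟩
  have h1 : R.card ≤ f.natDegree := (Multiset.toFinset_card_le _).trans (card_roots' f)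
  calc Nat.card S ≤ Nat.card (↑T : Set W.toAffine.Point) :=
        Nat.card_mono T.finite_toSet hsub
    _ = T.card := by simp
    _ ≤ 1 + 2 * f.natDegree := by
      refine (Finset.card_insert_le _ _).trans ?_
      have := Finset.card_union_le (R.image pick) (R.image fun x => -pick x)
      have := Finset.card_image_le (s := R) (f := pick)
      have := Finset.card_image_le (s := R) (f := fun x => -pick x)
      omega

lemma torsion_three_finite_card_le (h3 : (3 : F) ≠ 0) :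
    Finite (Submodule.torsionBy ℤ W.toAffine.Point ((3 : ℕ) : ℤ)) ∧
      Nat.card (Submodule.torsionBy ℤ W.toAffine.Point ((3 : ℕ) : ℤ)) ≤ 9 := by
  have := natCard_le_of_X_root W (W.Ψ₃_ne_zero h3)
    (S := (Submodule.torsionBy ℤ W.toAffine.Point ((3 : ℕ) : ℤ) : Set W.toAffine.Point))
    (fun x y h hP => Ψ₃_eq_zero_of_three_nsmul (h := h) (by
      rw [SetLike.mem_coe, Submodule.mem_torsionBy_iff, Nat.cast_smul_eq_nsmul] at hP
      exact hP))
  rw [W.natDegree_Ψ₃ h3] at this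
  exact ⟨this.1.to_subtype, this.2⟩

lemma torsion_five_finite_card_le (h5 : ((5 : ℕ) : F) ≠ 0) :
    Finite (Submodule.torsionBy ℤ W.toAffine.Point ((5 : ℕ) : ℤ)) ∧
      Nat.card (Submodule.torsionBy ℤ W.toAffine.Point ((5 : ℕ) : ℤ)) ≤ 25 := by
  have hf : W.preΨ' 5 ≠ 0 := ne_zero_of_natDegree_gt (W.natDegree_preΨ'_pos (by norm_num) h5)
  have := natCard_le_of_X_root W hf
    (S := (Submodule.torsionBy ℤ W.toAffine.Point ((5 : ℕ) : ℤ) : Set W.toAffine.Point))
    (fun x y h hP => (isFivePair_of_five_nsmul (h := h) (by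
      rw [SetLike.mem_coe, Submodule.mem_torsionBy_iff, Nat.cast_smul_eq_nsmul] at hP
      exact hP)).1.preΨ'_five_eq_zero)
  rw [W.natDegree_preΨ' h5] at this
  norm_num [Nat.not_even_iff] at this
  exact ⟨this.1.to_subtype, this.2⟩

end Point

end Fermat.Agent.EC35
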