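/-
Rational points on the fibre product of the `j`-maps of `X₀(3)` and `X₀(5)`,
reduced to the rational points of `V² = X (X - 16) (X + 9)`.
-/
import Mathlib.Tactic

set_option autoImplicit false

namespace Fermat.Agent.EC35

/-- The set of abscissae of rational points of the Weierstrass model of `X₀(15)`. -/
def X015PointsProp : Prop :=
  ∀ {X V : ℚ}, V ^ 2 = X * (X - 16) * (X + 9) → X = 0 ∨ X = 16 ∨ X = -9 ∨ X = 36 ∨ X = -4

lemma sq_add_ten_mul_add_five_ne_zero (h : ℚ) : h ^ 2 + 10 * h + 5 ≠ 0 := by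
  intro hp
  have h20 : IsSquare (20 : ℚ) := ⟨h + 5, by linear_combination -hp⟩
  norm_num at h20

lemma eq_or_eq_of_factor {h r s : ℚ} (e : (h - r) * (h - s) = 0) : h = r ∨ h = s := by
  rcases mul_eq_zero.mp e with e' | e'
  · exact Or.inl (sub_eq_zero.mp e')
  · exact Or.inr (sub_eq_zero.mp e')

/-- A common `j`-invariant of `X₀(3)` and `X₀(5)` over `ℚ` comes from four values of `h`. -/
theorem fibre_product_h (hpts : X015PointsProp) {t h : ℚ} (ht : t ≠ 0) (hh : h ≠ 0)
    (e : (t + 27) * (t + 3) ^ 3 * h = t * (h ^ 2 + 10 * h + 5) ^ 3) :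
    h = -10 ∨ h = -25 / 2 ∨ h = -40 ∨ h = -25 / 8 := by
  have hp := sq_add_ten_mul_add_five_ne_zero h
  have ht3 : t + 3 ≠ 0 := by
    intro h3
    rw [h3] at e
    have : t * (h ^ 2 + 10 * h + 5) ^ 3 = 0 := by linear_combination -e
    simp [ht, hp] at this
  obtain ⟨q, hq⟩ : ∃ q : ℚ, q * (t + 3) = h ^ 2 + 10 * h + 5 :=
    ⟨(h ^ 2 + 10 * h + 5) / (t + 3), div_mul_cancel₀ _ ht3⟩
  have hq0 : q ≠ 0 := by
    rintro rfl
    exact hp (by rw [← hq, zero_mul])
  have e1 : (t + 27) * h = t * q ^ 3 := by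
    apply mul_right_cancel₀ (pow_ne_zero 3 ht3)
    rw [← hq] at e
    linear_combination e
  -- the plane model in the variables `q`, `h`
  have G : 3 * q ^ 4 - 5 * q ^ 3 - 10 * q ^ 3 * h - q ^ 3 * h ^ 2 + 5 * h + 10 * h ^ 2 + h ^ 3
      + 24 * q * h = 0 := by
    linear_combination (q ^ 3 - h) * hq + q * e1
  set A : ℚ := q ^ 2 - q * h - q + h - 1 with hA
  set B : ℚ := 1 - 4 * h - h ^ 2 with hB
  have key : A * (2 * q * B + B + 6 * A) ^ 2 = B * (4 * B ^ 2 - 7 * A * B - 36 * A ^ 2) := by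
    rw [hA, hB]
    linear_combination (-12 + 8 * h + 16 * h ^ 2 + 4 * h ^ 3 - 8 * q - 28 * q * h
      - 4 * q * h ^ 2 + 12 * q ^ 2) * G
  have hA0 : A ≠ 0 := by
    intro hA0
    rw [hA0] at key
    have : B ^ 3 = 0 := by linear_combination (-1 / 4 : ℚ) * key
    have hB0 : B = 0 := pow_eq_zero_iff (three_ne_zero) |>.mp this
    have h5 : IsSquare (5 : ℚ) := ⟨h + 2, by rw [hB] at hB0; linear_combination hB0⟩
    norm_num at h5
  obtain ⟨X, hX⟩ : ∃ X : ℚ, A * X = 4 * B := ⟨4 * B / A, mul_div_cancel₀ _ hA0⟩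
  have hV : ((2 * q + 1) * X + 24) ^ 2 = X * (X - 16) * (X + 9) := by
    apply mul_left_cancel₀ (pow_ne_zero 3 hA0)
    have hB' : B = A * X / 4 := by linear_combination (-1 / 4 : ℚ) * hX
    rw [hB'] at key
    linear_combination 16 * key
  rw [hA, hB] at hX
  rcases hpts hV with rfl | rfl | rfl | rfl | rfl
  · norm_num at hV
  · have hz : (2 * q + 1) * 16 + 24 = 0 :=
      pow_eq_zero_iff two_ne_zero |>.mp (by rw [hV]; ring)
    obtain rfl : q = -5 / 4 := by linarith
    rcases eq_or_eq_of_factor (h := h) (r := -1 / 2) (s := -25 / 2) (by linarith) with rfl | rfl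
    · norm_num at G
    · simp
  · have hz : (2 * q + 1) * (-9) + 24 = 0 :=
      pow_eq_zero_iff two_ne_zero |>.mp (by rw [hV]; ring)
    obtain rfl : q = 5 / 6 := by linarith
    rcases eq_or_eq_of_factor (h := h) (r := -1 / 2) (s := -25 / 8) (by linarith) with rfl | rfl
    · norm_num at G
    · simp
  · have h2 : ((2 * q + 1) * 36 + 24) ^ 2 = 180 ^ 2 := by rw [hV]; norm_num
    rcases sq_eq_sq_iff_eq_or_eq_neg.mp h2 with hz | hz
    · obtain rfl : q = 5 / 3 := by linarith
      rcases eq_or_eq_of_factor (h := h) (r := 0) (s := 2) (by linarith) with rfl | rfl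
      · exact absurd rfl hh
      · norm_num at G
    · obtain rfl : q = -10 / 3 := by linarith
      rcases eq_or_eq_of_factor (h := h) (r := -3) (s := -40) (by linarith) with rfl | rfl
      · norm_num at G
      · simp
  · have h2 : ((2 * q + 1) * (-4) + 24) ^ 2 = 20 ^ 2 := by rw [hV]; norm_num
    rcases sq_eq_sq_iff_eq_or_eq_neg.mp h2 with hz | hz
    · exact absurd (by linarith) hq0
    · obtain rfl : q = 5 := by linarith
      rcases eq_or_eq_of_factor (h := h) (r := 2) (s := -10) (by linarith) with rfl | rfl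
      · norm_num at G
      · simp

end Fermat.Agent.EC35
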