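/-
If the mod `3` (resp. mod `5`) representation of an elliptic curve over `ℚ` is reducible, its
`j`-invariant is in the image of `X₀(3)(ℚ)` (resp. `X₀(5)(ℚ)`).
-/
import Fermat.Prelude.Def_FLTPrelim_GaloisRep
import Fermat.Agent.EC35.Division
import Mathlib.FieldTheory.Galois.Infinite
import Mathlib.FieldTheory.Perfect

set_option autoImplicit false

open Polynomial WeierstrassCurve WeierstrassCurve.Affine WeierstrassCurve.Affine.Point
open scoped WeierstrassCurve.Affine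

namespace Fermat.Agent.EC35

section Param

variable {F : Type*} [Field F] (W : WeierstrassCurve F)

/-- A root of the 3-division polynomial puts `j` in the image of `X₀(3)`. -/
lemma exists_three_param {x : F} (hΔ : W.Δ ≠ 0) (h27 : (27 : F) ≠ 0)
    (hx : W.Ψ₃.eval x = 0) :
    ∃ t : F, t ≠ 0 ∧ W.c₄ ^ 3 * t = W.Δ * ((t + 27) * (t + 3) ^ 3) := by
  have hr := shift_relation W x
  have hd := Δ_eq_shift W x
  have hc := c₄_eq_shift W x
  rw [hx] at hr hd
  rw [hc]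
  generalize hB : shiftB₂ W x = B at hr hd
  generalize hC : shiftB₄ W x = C at hr hd
  generalize hA : W.Ψ₂Sq.eval x = A at hr hd
  have hA' : B * A = C ^ 2 := by linear_combination -hr
  rw [hd] at hΔ
  by_cases hB0 : B = 0
  · have hC0 : C = 0 := pow_eq_zero_iff two_ne_zero |>.mp (by rw [← hA', hB0, zero_mul])
    refine ⟨-27, neg_ne_zero.mpr h27, ?_⟩
    rw [hB0, hC0]
    ring
  · obtain rfl : A = C ^ 2 / B := by rw [eq_div_iff hB0, mul_comm]; exact hA'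
    have hC0 : C ≠ 0 := fun h => hΔ (by rw [h]; simp)
    refine ⟨B ^ 2 / C - 27, fun h => hΔ ?_, ?_⟩
    · rw [sub_eq_zero, div_eq_iff hC0] at h
      field_simp
      linear_combination C ^ 3 * h
    · rw [hd]
      field_simp
      ring

/-- The invariant of a pair of `x`-coordinates `(x(P), x(2P))` for a point `P` of order 5; for the
Tate normal form with parameter `b` it equals `b - 1/b`. -/
noncomputable def fiveInvariant (x z : F) : F :=
  (W.Ψ₂Sq.eval z - W.Ψ₂Sq.eval x) / (z - x) ^ 3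

lemma fiveInvariant_symm (x z : F) : fiveInvariant W z x = fiveInvariant W x z := by
  rw [fiveInvariant, fiveInvariant, ← neg_sub z x, Odd.neg_pow (by decide : Odd 3), div_neg, ← neg_div,
    neg_sub]

lemma fiveInvariant_spec {x z : F} (h : IsFivePair W x z) :
    W.c₄ ^ 3 * (fiveInvariant W x z - 11) =
      W.Δ * ((fiveInvariant W x z - 11) ^ 2 + 10 * (fiveInvariant W x z - 11) + 5) ^ 3 := by
  have hD : z - x ≠ 0 := sub_ne_zero.mpr h.ne
  have hr := shift_relation W x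
  have hd := Δ_eq_shift W x
  have hc := c₄_eq_shift W x
  have h2 := h.Ψ₂Sq_eq
  have h0 := h.nonzero
  have hv : W.Ψ₂Sq.eval z - W.Ψ₂Sq.eval x = 4 * (z - x) ^ 3 + shiftB₂ W x * (z - x) ^ 2
      + 2 * shiftB₄ W x * (z - x) := by
    simp only [eval_Ψ₂Sq, shiftB₂, shiftB₄]
    ring
  rw [h.left] at hr hd
  rw [fiveInvariant, hv, hc, hd]
  generalize shiftB₂ W x = B at hr ⊢
  generalize W.Ψ₂Sq.eval x = A at hr h2 h0 ⊢
  generalize shiftB₄ W x = C at hr h2 ⊢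
  generalize z - x = D at hr h2 hD ⊢
  obtain ⟨e, rfl⟩ : ∃ e, C = D ^ 2 - e := ⟨D ^ 2 - C, by ring⟩
  obtain rfl : A = D * e := by rw [h2]; ring
  have he : e ≠ 0 := right_ne_zero_of_mul h0
  obtain rfl : B = (D ^ 4 - 6 * D ^ 2 * e + e ^ 2) / (D * e) := by
    rw [eq_div_iff h0]
    linear_combination -hr
  field_simp
  ring

end Param

section Line

variable {p : ℕ} [Fact p.Prime] {M : Type*} [AddCommGroup M] [Module (ZMod p) M] [Finite M]

/-- A proper nonzero subspace of a space with at most `p²` elements is spanned by any of its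
nonzero vectors. -/
lemma exists_generator_of_line (hM : Nat.card M ≤ p ^ 2) (N : Submodule (ZMod p) M)
    (hbot : N ≠ ⊥) (htop : N ≠ ⊤) :
    ∃ v ∈ N, v ≠ 0 ∧ ∀ w ∈ N, ∃ c : ℕ, c < p ∧ w = c • v := by
  obtain ⟨v, hv, hv0⟩ := Submodule.exists_mem_ne_zero_of_ne_bot hbot
  have hp : p.Prime := Fact.out
  have hrank : Module.finrank (ZMod p) M ≤ 2 := by
    rw [Module.natCard_eq_pow_finrank (K := ZMod p), Nat.card_zmod] at hM
    exact (Nat.pow_le_pow_iff_right hp.one_lt).mp hM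
  have hN : Module.finrank (ZMod p) N = 1 := by
    have h1 := Submodule.finrank_lt htop
    have h2 := Submodule.one_le_finrank_iff.mpr hbot
    omega
  refine ⟨v, hv, hv0, fun w hw => ?_⟩
  obtain ⟨c, hc⟩ := (finrank_eq_one_iff_of_nonzero' (⟨v, hv⟩ : N) (by simpa using hv0)).mp hN
    ⟨w, hw⟩
  refine ⟨c.val, ZMod.val_lt c, ?_⟩
  have hc' : c • v = w := congrArg Subtype.val hc
  rw [← Nat.cast_smul_eq_nsmul (ZMod p), ZMod.natCast_zmod_val, hc']

end Line

section Galois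

local notation "ℚbar" => AlgebraicClosure ℚ

lemma exists_rat_of_fixed {x : ℚbar} (hx : ∀ σ : ℚbar ≃ₐ[ℚ] ℚbar, σ x = x) :
    ∃ q : ℚ, algebraMap ℚ ℚbar q = x := by
  have : Algebra.IsAlgebraic ℚ ℚbar := AlgebraicClosure.isAlgebraic ℚ
  have : IsAlgClosure ℚ ℚbar := ⟨inferInstance, inferInstance⟩
  have : IsGalois ℚ ℚbar := IsGalois.mk
  exact IntermediateField.mem_bot.mp ((InfiniteGalois.mem_bot_iff_fixed x).mpr hx)

lemma algEquiv_eval_map (σ : ℚbar ≃ₐ[ℚ] ℚbar) (f : ℚ[X]) (x : ℚbar) :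
    σ ((f.map (algebraMap ℚ ℚbar)).eval x) = (f.map (algebraMap ℚ ℚbar)).eval (σ x) := by
  rw [eval_map, eval_map, ← aeval_def, ← aeval_def]
  exact (aeval_algHom_apply σ.toAlgHom x f).symm

variable (E : WeierstrassCurve ℚ)

/-- The `n`-torsion of `E` over `ℚ̄`. -/
noncomputable abbrev torsionQbar (n : ℕ) := Submodule.torsionBy ℤ ((E⁄ℚbar).toAffine.Point) ((n : ℕ) : ℤ)

lemma baseChange_qbar_eq : (E⁄ℚbar) = E.map (algebraMap ℚ ℚbar) := rfl

lemma baseChange_Δ_ne_zero (hΔ : E.Δ ≠ 0) : (E⁄ℚbar).Δ ≠ 0 := by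
  rw [baseChange_qbar_eq, WeierstrassCurve.map_Δ]
  exact (_root_.map_ne_zero _).mpr hΔ

lemma coe_smul_torsionBy {n : ℕ} (σ : ℚbar ≃ₐ[ℚ] ℚbar) (P : torsionQbar E n) :
    ((σ • P : torsionQbar E n) : (E⁄ℚbar).toAffine.Point) =
      Point.map σ.toAlgHom (P : (E⁄ℚbar).toAffine.Point) := rfl

lemma nsmul_coe_eq_zero {n : ℕ} (P : torsionQbar E n) : n • (P : (E⁄ℚbar).toAffine.Point) = 0 := by
  rw [← Nat.cast_smul_eq_nsmul ℤ]
  exact (Submodule.mem_torsionBy_iff _ _).mp P.2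

/-- A stable proper nonzero line in `E[n]`, from reducibility. -/
lemma exists_line {n : ℕ} [Fact n.Prime]
    (hfin : Finite (torsionQbar E n) ∧ Nat.card (torsionQbar E n) ≤ n ^ 2)
    (hne : ∃ P : (E⁄ℚbar).toAffine.Point, P ≠ 0 ∧ n • P = 0)
    (h : ¬ GaloisRepIsIrreducible (K := ℚbar) ℚ E n) :
    ∃ (x y : ℚbar) (hxy : (E⁄ℚbar).toAffine.Nonsingular x y),
      n • Point.some x y hxy = 0 ∧
      ∀ σ : ℚbar ≃ₐ[ℚ] ℚbar, ∃ c : ℕ, c < n ∧
        Point.map σ.toAlgHom (Point.some x y hxy) = c • Point.some x y hxy := by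
  have := hfin.1
  have hnt : Nontrivial (torsionQbar E n) := by
    obtain ⟨P, hP0, hP⟩ := hne
    refine ⟨⟨⟨P, (Submodule.mem_torsionBy_iff _ _).mpr ?_⟩, 0, fun e => hP0 ?_⟩⟩
    · rw [Nat.cast_smul_eq_nsmul]; exact hP
    · exact congrArg Subtype.val e
  rw [GaloisRepIsIrreducible] at h
  push Not at h
  obtain ⟨N, hst, hbot, htop⟩ := h hnt
  obtain ⟨v, hv, hv0, hgen⟩ := exists_generator_of_line hfin.2 N hbot htop
  obtain ⟨P, hPmem⟩ := v
  match P, hPmem, hv, hv0, hgen with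
  | .zero, _, _, hv0, _ => exact absurd (Subtype.ext rfl) hv0
  | .some x y hxy, hPmem, hv, hv0, hgen =>
    refine ⟨x, y, hxy, nsmul_coe_eq_zero E ⟨_, hPmem⟩, fun σ => ?_⟩
    obtain ⟨c, hc, e⟩ := hgen _ (hst σ _ hv)
    refine ⟨c, hc, ?_⟩
    have e' := congrArg (Subtype.val) e
    rw [coe_smul_torsionBy] at e'
    simpa using e'

variable {E}

lemma x_map {σ : ℚbar ≃ₐ[ℚ] ℚbar} {x y x' y' : ℚbar}
    {h : (E⁄ℚbar).toAffine.Nonsingular x y} {h' : (E⁄ℚbar).toAffine.Nonsingular x' y'}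
    (e : Point.map σ.toAlgHom (Point.some x y h) = Point.some x' y' h' ∨
      Point.map σ.toAlgHom (Point.some x y h) = -Point.some x' y' h') : σ x = x' := by
  rw [Point.map_some] at e
  exact e.elim X_eq_of_eq X_eq_of_eq_neg

/-- Reducibility mod 3 puts `j` in the image of `X₀(3)(ℚ)`. -/
theorem exists_three_param_of_reducible (hΔ : E.Δ ≠ 0)
    (h : ¬ GaloisRepIsIrreducible (K := ℚbar) ℚ E 3) :
    ∃ t : ℚ, t ≠ 0 ∧ E.c₄ ^ 3 * t = E.Δ * ((t + 27) * (t + 3) ^ 3) := by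
  have : Fact (Nat.Prime 3) := ⟨Nat.prime_three⟩
  have h3 : (3 : ℚbar) ≠ 0 := three_ne_zero
  have hΔ' := baseChange_Δ_ne_zero E hΔ
  obtain ⟨x, y, hxy, hP, hσ⟩ := exists_line E (torsion_three_finite_card_le (E⁄ℚbar) h3)
    (exists_three_torsion (E⁄ℚbar) hΔ' h3) h
  obtain ⟨q, rfl⟩ : ∃ q : ℚ, algebraMap ℚ ℚbar q = x := by
    refine exists_rat_of_fixed fun σ => ?_
    obtain ⟨c, hc, e⟩ := hσ σ
    interval_cases c
    · rw [zero_nsmul, Point.map_some] at e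
      exact absurd e (Point.some_ne_zero _)
    · exact x_map (Or.inl (e.trans (one_nsmul _)))
    · refine x_map (h' := hxy) (Or.inr (e.trans ?_))
      rw [eq_neg_iff_add_eq_zero, ← succ_nsmul]
      exact hP
  have hx := Ψ₃_eq_zero_of_three_nsmul hP
  rw [baseChange_qbar_eq, WeierstrassCurve.map_Ψ₃, eval_map, eval₂_at_apply,
    _root_.map_eq_zero] at hx
  exact exists_three_param E hΔ (by norm_num) hx

/-- Reducibility mod 5 puts `j` in the image of `X₀(5)(ℚ)`. -/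
theorem exists_five_param_of_reducible (hΔ : E.Δ ≠ 0)
    (h : ¬ GaloisRepIsIrreducible (K := ℚbar) ℚ E 5) :
    ∃ r : ℚ, r ≠ 0 ∧ E.c₄ ^ 3 * r = E.Δ * (r ^ 2 + 10 * r + 5) ^ 3 := by
  have : Fact (Nat.Prime 5) := ⟨Nat.prime_five⟩
  have h5 : ((5 : ℕ) : ℚbar) ≠ 0 := by norm_num
  have hΔ' := baseChange_Δ_ne_zero E hΔ
  obtain ⟨x, y, hxy, hP, hσ⟩ := exists_line E (torsion_five_finite_card_le (E⁄ℚbar) h5)
    (exists_five_torsion (E⁄ℚbar) hΔ' h5) h
  obtain ⟨hpair, y', hz, h2P⟩ := isFivePair_of_five_nsmul hP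
  set z := dblX (E⁄ℚbar) x
  set P := Point.some x y hxy with hPdef
  set Q := Point.some z y' hz with hQdef
  have hswap : ∀ σ : ℚbar ≃ₐ[ℚ] ℚbar, (σ x = x ∧ σ z = z) ∨ (σ x = z ∧ σ z = x) := by
    intro σ
    obtain ⟨c, hc, e⟩ := hσ σ
    have eQ : Point.map σ.toAlgHom Q = (2 * c) • P := by rw [← h2P, map_nsmul, e, mul_smul]
    have h3P : 3 • P = -Q := by
      rw [← h2P, eq_neg_iff_add_eq_zero, ← add_nsmul]; exact hP
    have h4P : 4 • P = -P := by rw [eq_neg_iff_add_eq_zero, ← succ_nsmul]; exact hP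
    interval_cases c
    · rw [zero_nsmul, hPdef, Point.map_some] at e
      exact absurd e (Point.some_ne_zero _)
    · exact Or.inl ⟨x_map (Or.inl (e.trans (one_nsmul _))), x_map (Or.inl (eQ.trans h2P))⟩
    · exact Or.inr ⟨x_map (Or.inl (e.trans h2P)), x_map (Or.inr (eQ.trans h4P))⟩
    · refine Or.inr ⟨x_map (Or.inr (e.trans h3P)), x_map (h' := hxy) (Or.inl (eQ.trans ?_))⟩
      rw [show 2 * 3 = 5 + 1 from rfl, succ_nsmul, hP, zero_add]
    · refine Or.inl ⟨x_map (Or.inr (e.trans h4P)), x_map (h' := hz) (Or.inr (eQ.trans ?_))⟩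
      rw [show 2 * 4 = 5 + 3 from rfl, add_nsmul, hP, zero_add, h3P]
  obtain ⟨v, hv⟩ : ∃ v : ℚ, algebraMap ℚ ℚbar v = fiveInvariant (E⁄ℚbar) x z := by
    refine exists_rat_of_fixed fun σ => ?_
    have hev : ∀ w : ℚbar, σ ((E⁄ℚbar).Ψ₂Sq.eval w) = (E⁄ℚbar).Ψ₂Sq.eval (σ w) := by
      intro w
      rw [baseChange_qbar_eq, WeierstrassCurve.map_Ψ₂Sq]
      exact algEquiv_eval_map σ _ w
    have hmap : σ (fiveInvariant (E⁄ℚbar) x z) = fiveInvariant (E⁄ℚbar) (σ x) (σ z) := by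
      simp only [fiveInvariant, map_div₀, map_sub, map_pow, hev]
    rw [hmap]
    rcases hswap σ with ⟨e1, e2⟩ | ⟨e1, e2⟩ <;> rw [e1, e2]
    exact fiveInvariant_symm _ _ _
  have hspec := fiveInvariant_spec _ hpair
  rw [← hv, baseChange_qbar_eq, WeierstrassCurve.map_c₄, WeierstrassCurve.map_Δ] at hspec
  have hspec' : E.c₄ ^ 3 * (v - 11) = E.Δ * ((v - 11) ^ 2 + 10 * (v - 11) + 5) ^ 3 := by
    apply (algebraMap ℚ ℚbar).injective
    simpa using hspec
  refine ⟨v - 11, fun e => hΔ ?_, hspec'⟩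
  rw [e] at hspec'
  linear_combination (-1 / 125 : ℚ) * hspec'

end Galois

end Fermat.Agent.EC35
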