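/-
A semistable integral model has irreducible mod `3` or mod `5` representation, granted the
rational points of `X₀(15)`.
-/
import Fermat.Prelude.Def_FLTPrelim_ModularRep
import Fermat.Agent.EC35.Reducible
import Fermat.Agent.EC35.FibreProduct

set_option autoImplicit false

open WeierstrassCurve

namespace Fermat.Agent.EC35

/-- No semistable model has `n * j = m` with `5 ∤ n` and `v₅(m) ∈ {1, 2}`. -/
lemma not_five_small_valuation {a d m n : ℤ} (hcop : (5 : ℤ) ∣ d → ¬ (5 : ℤ) ∣ a)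
    (hm : (5 : ℤ) ∣ m) (hm' : ¬ (5 : ℤ) ^ 3 ∣ m) (hn : ¬ (5 : ℤ) ∣ n) :
    a ^ 3 * n ≠ m * d := by
  intro e
  have h5 : Prime (5 : ℤ) := by norm_num [Int.prime_iff_natAbs_prime]
  have ha : (5 : ℤ) ∣ a := h5.dvd_of_dvd_pow
    ((h5.dvd_mul.mp (e ▸ dvd_mul_of_dvd_left hm d)).resolve_right hn)
  have hd : ¬ (5 : ℤ) ∣ d := fun h => hcop h ha
  have h : (5 : ℤ) ^ 3 ∣ m * d := e ▸ dvd_mul_of_dvd_left (pow_dvd_pow_of_dvd ha 3) n
  exact hm' (IsCoprime.dvd_of_dvd_mul_right
    ((h5.coprime_iff_not_dvd.mpr hd).pow_left) h)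

theorem modThree_or_five_irreducible_of_points (hpts : X015PointsProp) (W : WeierstrassCurve ℤ)
    (hΔ : W.Δ ≠ 0) (hW : W.IsSemistableModel) :
    W.ModRepIsIrreducible 3 ∨ W.ModRepIsIrreducible 5 := by
  by_contra hcon
  push Not at hcon
  set E : WeierstrassCurve ℚ := W.map (Int.castRingHom ℚ) with hE
  have hD : E.Δ = (W.Δ : ℚ) := by simp [hE]
  have hc : E.c₄ = (W.c₄ : ℚ) := by simp [hE]
  have hΔ' : E.Δ ≠ 0 := by rw [hD]; exact_mod_cast hΔ
  obtain ⟨t, ht, et⟩ := exists_three_param_of_reducible hΔ' hcon.1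
  obtain ⟨h, hh, eh⟩ := exists_five_param_of_reducible hΔ' hcon.2
  have e : (t + 27) * (t + 3) ^ 3 * h = t * (h ^ 2 + 10 * h + 5) ^ 3 := by
    apply mul_left_cancel₀ hΔ'
    linear_combination (-h) * et + t * eh
  have h5 : (5 : ℤ) ∣ W.Δ → ¬ (5 : ℤ) ∣ W.c₄ := hW 5 Nat.prime_five
  rw [hD, hc] at eh
  rcases fibre_product_h hpts ht hh e with rfl | rfl | rfl | rfl
  · refine not_five_small_valuation h5 (m := -25) (n := 2) (by norm_num) (by norm_num)
      (by norm_num) ?_
    have key : (W.c₄ : ℚ) ^ 3 * 2 = -25 * (W.Δ : ℚ) := by linear_combination (-1 / 5 : ℚ) * eh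
    exact_mod_cast key
  · refine not_five_small_valuation h5 (m := -121945) (n := 32) (by norm_num) (by norm_num)
      (by norm_num) ?_
    have key : (W.c₄ : ℚ) ^ 3 * 32 = -121945 * (W.Δ : ℚ) := by
      linear_combination (-64 / 25 : ℚ) * eh
    exact_mod_cast key
  · refine not_five_small_valuation h5 (m := -349938025) (n := 8) (by norm_num) (by norm_num)
      (by norm_num) ?_
    have key : (W.c₄ : ℚ) ^ 3 * 8 = -349938025 * (W.Δ : ℚ) := by
      linear_combination (-1 / 5 : ℚ) * eh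
    exact_mod_cast key
  · refine not_five_small_valuation h5 (m := 46969655) (n := 32768) (by norm_num) (by norm_num)
      (by norm_num) ?_
    have key : (W.c₄ : ℚ) ^ 3 * 32768 = 46969655 * (W.Δ : ℚ) := by
      linear_combination (-262144 / 25 : ℚ) * eh
    exact_mod_cast key

end Fermat.Agent.EC35
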